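import Fermat.Agent.WaringHilbert.Main
import Mathlib.Algebra.Polynomial.Eval.Degree
import Mathlib.RingTheory.Localization.Integer

/-!
# Sums of values of a polynomial

By Linnik's lemma, which holds for every polynomial, the sums of `s` values of an integer-valued
polynomial and ones have positive Schnirelmann density.
-/

set_option autoImplicit false

noncomputable section

namespace FA.WaringKamke

open Finset Polynomial
open FA.WaringHilbert (polyVal)

/-- An integer-valued polynomial cleared of denominators. -/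
theorem exists_integer_coeff {f : ℕ → ℕ} {p : ℚ[X]} (hp : 1 ≤ p.natDegree)
    (hf : ∀ x : ℕ, (f x : ℚ) = p.eval (x : ℚ)) :
    ∃ (D : ℤ) (a : ℕ → ℤ), D ≠ 0 ∧ a p.natDegree ≠ 0 ∧
      ∀ x : ℕ, polyVal p.natDegree a x = D * f x := by
  obtain ⟨k, hk⟩ : ∃ k, k = p.natDegree := ⟨_, rfl⟩
  rw [← hk]
  obtain ⟨⟨D, hD⟩, hint⟩ := IsLocalization.exist_integer_multiples_of_finite
    (nonZeroDivisors ℤ) (S := ℚ) fun j : Fin (k + 1) => p.coeff j
  choose c hc using hint
  simp only [algebraMap_int_eq, eq_intCast, Algebra.smul_def] at hc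
  have hD0 : D ≠ 0 := nonZeroDivisors.ne_zero hD
  obtain ⟨a, ha⟩ : ∃ a : ℕ → ℤ, a = fun j => if h : j < k + 1 then c ⟨j, h⟩ else 0 := ⟨_, rfl⟩
  have hac : ∀ j, j < k + 1 → (a j : ℚ) = (D : ℚ) * p.coeff j := fun j hj => by
    rw [ha]
    simp only [dif_pos hj]
    exact hc ⟨j, hj⟩
  refine ⟨D, a, hD0, fun h0 => ?_, fun x => ?_⟩
  · have h1 := hac k (Nat.lt_succ_self k)
    rw [h0, Int.cast_zero] at h1
    have hp0 : p ≠ 0 := fun e => by rw [e, natDegree_zero] at hp; omega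
    refine hp0 (leadingCoeff_eq_zero.1 ?_)
    rw [leadingCoeff, ← hk]
    exact (mul_eq_zero.1 h1.symm).resolve_left (Int.cast_ne_zero.2 hD0)
  · have h : ((polyVal k a x : ℤ) : ℚ) = (D : ℚ) * f x := by
      rw [hf, eval_eq_sum_range, ← hk, polyVal, mul_sum]
      push_cast
      refine sum_congr rfl fun j hj => ?_
      rw [hac j (mem_range.1 hj)]
      ring
    exact_mod_cast h

/-- The values and the number one. -/
def valueSet (f : ℕ → ℕ) : Set ℕ := Set.range f ∪ {1}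

theorem sum_mem_sums {f : ℕ → ℕ} {s : ℕ} (x : Fin s → ℕ) :
    ∑ i, f (x i) ∈ GoldbachSchnirelmann.sumsOf (valueSet f) s := by
  refine ⟨List.ofFn fun i => f (x i), by simp, fun y hy => ?_, List.sum_ofFn⟩
  obtain ⟨i, rfl⟩ := List.mem_ofFn.1 hy
  exact Or.inl ⟨x i, rfl⟩

/-- **Positive density.** -/
theorem density_values_pos {f : ℕ → ℕ} {p : ℚ[X]} (hp : 1 ≤ p.natDegree)
    (hf : ∀ x : ℕ, (f x : ℚ) = p.eval (x : ℚ)) :
    ∃ s, 0 < GoldbachSchnirelmann.density (GoldbachSchnirelmann.sumsOf (valueSet f) s) := by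
  classical
  obtain ⟨D, a, hD, hak, ha⟩ := exists_integer_coeff hp hf
  obtain ⟨k, hk⟩ : ∃ k, k = p.natDegree := ⟨_, rfl⟩
  rw [← hk] at hp hak ha
  obtain ⟨s, hks, hL⟩ := WaringHilbert.linnik k hp
  obtain ⟨c, hc⟩ : ∃ c, c = ∑ j ∈ range (k + 1), (a j).natAbs := ⟨_, rfl⟩
  have hc1 : 1 ≤ c := hc ▸ (Int.natAbs_pos.2 hak).trans_le
    (single_le_sum (f := fun j => (a j).natAbs) (fun j _ => Nat.zero_le _)
      (mem_range.2 (Nat.lt_succ_self k)))
  obtain ⟨K, hK0, hK⟩ := hL c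
  refine ⟨s, ?_⟩
  obtain ⟨S, hS⟩ : ∃ S, S = GoldbachSchnirelmann.sumsOf (valueSet f) s := ⟨_, rfl⟩
  rw [← hS]
  have hfB : ∀ P x : ℕ, 0 < P → x ≤ P → f x ≤ c * P ^ k := by
    intro P x hP hx
    have h1 : (polyVal k a x).natAbs ≤ c * P ^ k := by
      rw [polyVal, hc, sum_mul]
      refine (Int.natAbs_sum_le _ _).trans (sum_le_sum fun j hj => ?_)
      rw [Int.natAbs_mul, Int.natAbs_pow, Int.natAbs_natCast]
      exact Nat.mul_le_mul_left _ ((Nat.pow_le_pow_left hx j).trans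
        (Nat.pow_le_pow_right hP (Nat.lt_succ_iff.1 (mem_range.1 hj))))
    rw [ha, Int.natAbs_mul, Int.natAbs_natCast] at h1
    exact (Nat.le_mul_of_pos_left _ (Int.natAbs_pos.2 hD)).trans h1
  have hone : 1 ∈ S := hS ▸ ⟨[1], by simp; omega, fun y hy => Or.inr (by simpa using hy), by simp⟩
  have hcount : ∀ P : ℕ, 0 < P → ∀ N : ℕ, 0 < N → s * (c * P ^ k) ≤ N →
      (P : ℝ) ^ k ≤ 2 * (K + 1) * GoldbachSchnirelmann.countIn S N := by
    intro P hP N hN0 hN
    obtain ⟨T, hT⟩ : ∃ T, T = Fintype.piFinset fun _ : Fin s => Icc (0 : ℕ) P := ⟨_, rfl⟩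
    have hTc : (P : ℝ) ^ s ≤ #T := by
      rw [hT, Fintype.card_piFinset_const, Nat.card_Icc, Nat.sub_zero, ← Nat.cast_pow, Nat.cast_le]
      exact Nat.pow_le_pow_left (Nat.le_succ P) s
    have hmaps : ∀ x ∈ T, ∑ i, f (x i) ∈ insert 0 ((Ioc 0 N).filter (· ∈ S)) := by
      intro x hx
      rw [hT, Fintype.mem_piFinset] at hx
      rcases Nat.eq_zero_or_pos (∑ i, f (x i)) with h | h
      · exact mem_insert.2 (Or.inl h)
      refine mem_insert.2 (Or.inr (mem_filter.2 ⟨mem_Ioc.2 ⟨h, ?_⟩, hS ▸ sum_mem_sums x⟩))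
      refine (sum_le_card_nsmul _ _ _ fun i _ => hfB P (x i) hP (mem_Icc.1 (hx i)).2).trans ?_
      simpa using hN
    have hfib : ∀ n ∈ insert 0 ((Ioc 0 N).filter (· ∈ S)),
        (#(T.filter fun x => ∑ i, f (x i) = n) : ℝ) ≤ (K + 1) * (P : ℝ) ^ (s - k) := by
      intro n _
      refine le_trans (le_trans (Nat.cast_le.2 (card_le_card_of_injOn
        (fun x i => (x i : ℤ)) (fun x hx => ?_) fun x _ y _ hxy => ?_))
        (hK P hP a hak (fun j hj => ?_) (D * n))) ?_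
      · simp only [mem_coe, mem_filter, hT, Fintype.mem_piFinset, mem_Icc] at hx ⊢
        refine ⟨fun i => ⟨by omega, by exact_mod_cast (hx.1 i).2⟩, ?_⟩
        simp only [ha, ← mul_sum]
        rw [← hx.2]
        push_cast
        rfl
      · funext i
        simpa using congrFun hxy i
      · exact (single_le_sum (f := fun j => (a j).natAbs) (fun j _ => Nat.zero_le _)
          (mem_range.2 (Nat.lt_succ_iff.2 hj))).trans (hc ▸ Nat.le_mul_of_pos_right _
            (pow_pos hP _))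
      · exact mul_le_mul_of_nonneg_right (by linarith) (by positivity)
    have h1D : 1 ≤ GoldbachSchnirelmann.countIn S N :=
      Nat.one_le_cast.2 (card_pos.2 ⟨1, mem_filter.2 ⟨mem_Ioc.2 ⟨one_pos, hN0⟩, hone⟩⟩)
    have h2 : (P : ℝ) ^ s ≤
        2 * GoldbachSchnirelmann.countIn S N * ((K + 1) * (P : ℝ) ^ (s - k)) := by
      refine hTc.trans ?_
      rw [card_eq_sum_card_fiberwise (f := fun x => ∑ i, f (x i))
        (t := insert 0 ((Ioc 0 N).filter (· ∈ S))) fun x hx => mem_coe.2 (hmaps x (mem_coe.1 hx))]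
      push_cast
      refine (sum_le_sum hfib).trans ?_
      rw [sum_const, nsmul_eq_mul]
      refine mul_le_mul_of_nonneg_right ?_ (by positivity)
      refine (Nat.cast_le.2 (card_insert_le _ _)).trans ?_
      rw [Nat.cast_add_one, two_mul]
      exact add_le_add le_rfl h1D
    refine le_of_mul_le_mul_right ?_ (show (0 : ℝ) < (P : ℝ) ^ (s - k) by positivity)
    rw [← pow_add, show k + (s - k) = s by omega]
    linarith [h2]
  obtain ⟨r, hr⟩ : ∃ r, r = s * c := ⟨_, rfl⟩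
  have hr1 : 1 ≤ r := hr ▸ Nat.mul_pos (by omega) hc1
  obtain ⟨δ, hδ⟩ : ∃ δ : ℝ, δ = 1 / ((r : ℝ) * 2 ^ k * (2 * (K + 1))) := ⟨_, rfl⟩
  refine lt_of_lt_of_le (show 0 < δ by
    have : (0 : ℝ) < r := Nat.cast_pos.2 hr1
    rw [hδ]; positivity) ?_
  show δ ≤ schnirelmannDensity S
  rw [le_schnirelmannDensity_iff]
  intro N hN
  rw [le_div_iff₀ (Nat.cast_pos.2 hN)]
  show δ * (N : ℝ) ≤ GoldbachSchnirelmann.countIn S N
  have hr0 : (0 : ℝ) < r := Nat.cast_pos.2 hr1
  obtain ⟨P, hP⟩ : ∃ P, P = Nat.findGreatest (fun P => r * P ^ k ≤ N) N := ⟨_, rfl⟩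
  rw [hδ, one_div, inv_mul_le_iff₀ (by positivity)]
  have h1D : 1 ≤ GoldbachSchnirelmann.countIn S N :=
    Nat.one_le_cast.2 (card_pos.2 ⟨1, mem_filter.2 ⟨mem_Ioc.2 ⟨one_pos, hN⟩, hone⟩⟩)
  rcases Nat.eq_zero_or_pos P with h0 | h0
  · have hNs : N < r := by
      by_contra hc'
      exact absurd (Nat.le_findGreatest (P := fun P => r * P ^ k ≤ N) (m := 1) hN
        (by simpa using not_lt.1 hc')) (by rw [← hP, h0]; omega)
    calc (N : ℝ) ≤ (r : ℝ) * 1 * 1 * 1 := by simpa using hNs.le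
      _ ≤ (r : ℝ) * 2 ^ k * (2 * (K + 1)) * GoldbachSchnirelmann.countIn S N := by
        gcongr
        · exact one_le_pow₀ one_le_two
        · linarith
  · have hspec : r * P ^ k ≤ N := by
      have := Nat.findGreatest_of_ne_zero hP.symm h0.ne'
      exact this
    have hPN : P ≤ N :=
      (Nat.le_self_pow (by omega) P).trans ((Nat.le_mul_of_pos_left _ hr1).trans hspec)
    have hmax : N < r * (P + 1) ^ k := by
      rcases eq_or_lt_of_le hPN with h | h
      · calc N = P := h.symm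
          _ < P + 1 := Nat.lt_succ_self P
          _ ≤ (P + 1) ^ k := Nat.le_self_pow (by omega) _
          _ ≤ _ := Nat.le_mul_of_pos_left _ hr1
      · exact not_le.1 (Nat.findGreatest_is_greatest (P := fun P => r * P ^ k ≤ N) (n := N)
          (k := P + 1) (hP ▸ Nat.lt_succ_self P) h)
    calc (N : ℝ) ≤ (r : ℝ) * ((P : ℝ) + 1) ^ k := by exact_mod_cast hmax.le
      _ ≤ (r : ℝ) * (2 * (P : ℝ)) ^ k := by
        gcongr
        linarith [(Nat.one_le_cast (α := ℝ)).2 h0]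
      _ ≤ (r : ℝ) * 2 ^ k * (2 * (K + 1) * GoldbachSchnirelmann.countIn S N) := by
        rw [mul_pow, ← mul_assoc]
        refine mul_le_mul_of_nonneg_left (hcount P h0 N hN ?_) (by positivity)
        rw [← mul_assoc, ← hr]
        exact hspec
      _ = _ := by ring

/-- **Kamke's theorem**: values and ones. -/
theorem exists_values_ones {f : ℕ → ℕ} {p : ℚ[X]} (hp : 1 ≤ p.natDegree)
    (hf : ∀ x : ℕ, (f x : ℚ) = p.eval (x : ℚ)) :
    ∃ g : ℕ, ∀ n : ℕ, ∃ (L : List ℕ) (r : ℕ),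
      L.length ≤ g ∧ r ≤ g ∧ (L.map f).sum + r = n := by
  obtain ⟨s, hs⟩ := density_values_pos hp hf
  obtain ⟨g, hg⟩ := GoldbachSchnirelmann.exists_sumsOf_eq_univ _ hs
  refine ⟨g * s, fun n => ?_⟩
  obtain ⟨l, hl, hlA, rfl⟩ := (hg.symm ▸ Set.mem_univ n :
    n ∈ GoldbachSchnirelmann.sumsOf (GoldbachSchnirelmann.sumsOf (valueSet f) s) g)
  obtain ⟨L, hL, hLA, hsum⟩ := WaringHilbert.sumsOf_sumsOf (valueSet f) s g l hl hlA
  rw [← hsum]
  have key : ∀ M : List ℕ, (∀ x ∈ M, x ∈ valueSet f) → ∃ (L : List ℕ) (r : ℕ),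
      L.length + r = M.length ∧ (L.map f).sum + r = M.sum := by
    intro M hM
    induction M with
    | nil => exact ⟨[], 0, rfl, rfl⟩
    | cons x M ih =>
      obtain ⟨L, r, hlen, hLs⟩ := ih fun y hy => hM y (List.mem_cons_of_mem x hy)
      rcases hM x List.mem_cons_self with ⟨y, rfl⟩ | h
      · exact ⟨y :: L, r, by simp; omega, by simp; omega⟩
      · rw [Set.mem_singleton_iff] at h
        exact ⟨L, r + 1, by simp; omega, by simp [h]; omega⟩
  obtain ⟨L', r, hlen, hs'⟩ := key L hLA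
  exact ⟨L', r, by omega, by omega, hs'⟩

end FA.WaringKamke

end
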