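import Fermat.Agent.WaringKamke.Density
import Mathlib.RingTheory.Int.Basic
import Mathlib.RingTheory.Polynomial.Pochhammer
import Mathlib.Data.Nat.Choose.Cast

/-!
# Exactly `g` values
-/

set_option autoImplicit false

noncomputable section

namespace FA.WaringKamke

open Finset Polynomial

/-- Differences generating `ℤ` give `1` as a difference of two sums of values. -/
theorem exists_lists_one (h : ℕ → ℕ) (hd : ∀ d : ℕ, (∀ x, d ∣ h x) → d = 1) :
    ∃ A B : List ℕ, 1 + (B.map h).sum = (A.map h).sum := by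
  obtain ⟨H, hH⟩ : ∃ H, H = AddSubgroup.closure (Set.range fun x => (h x : ℤ)) := ⟨_, rfl⟩
  have key : ∀ z ∈ H, ∃ A B : List ℕ, z + ((B.map h).sum : ℕ) = ((A.map h).sum : ℕ) := by
    intro z hz
    rw [hH] at hz
    induction hz using AddSubgroup.closure_induction with
    | mem z hz =>
      obtain ⟨x, rfl⟩ := hz
      exact ⟨[x], [], by simp⟩
    | zero => exact ⟨[], [], by simp⟩
    | add u v _ _ hu hv =>
      obtain ⟨A, B, h1⟩ := hu
      obtain ⟨A', B', h2⟩ := hv
      refine ⟨A ++ A', B ++ B', ?_⟩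
      rw [List.map_append, List.map_append, List.sum_append, List.sum_append, Nat.cast_add,
        Nat.cast_add]
      linarith
    | neg u _ hu =>
      obtain ⟨A, B, h1⟩ := hu
      exact ⟨B, A, by linarith⟩
  obtain ⟨d, hd'⟩ := (Int.subgroup_cyclic H).imp fun d hd => hd
  have hmem : ∀ x, (h x : ℤ) ∈ H := fun x => hH ▸ AddSubgroup.subset_closure ⟨x, rfl⟩
  have h1 : d.natAbs = 1 := by
    refine hd _ fun x => ?_
    have h2 := hmem x
    rw [hd', AddSubgroup.mem_closure_singleton] at h2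
    obtain ⟨n, hn⟩ := h2
    have : d ∣ (h x : ℤ) := ⟨n, by rw [← hn, smul_eq_mul, mul_comm]⟩
    simpa using Int.natAbs_dvd_natAbs.2 this
  have hone : (1 : ℤ) ∈ H := by
    rw [hd', AddSubgroup.mem_closure_singleton]
    rcases Int.natAbs_eq d with e | e <;> rw [h1] at e
    · exact ⟨1, by simp [e]⟩
    · exact ⟨-1, by simp [e]⟩
  obtain ⟨A, B, h2⟩ := key 1 hone
  exact ⟨A, B, by exact_mod_cast h2⟩

/-- **Exactly `G` values.** -/
theorem exists_values_exact {f : ℕ → ℕ} {p : ℚ[X]} (hp : 1 ≤ p.natDegree)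
    (hf : ∀ x : ℕ, (f x : ℚ) = p.eval (x : ℚ))
    (hd : ∀ d : ℕ, (∀ x, (d : ℤ) ∣ (f x : ℤ) - f 0) → d = 1) :
    ∃ G N₀ : ℕ, ∀ n, N₀ ≤ n → ∃ x : Fin G → ℕ, ∑ i, f (x i) = n := by
  classical
  obtain ⟨x₀, hmin⟩ : ∃ x₀, ∀ x, f x₀ ≤ f x := ⟨Function.argmin f, fun x => Function.argmin_le f x⟩
  obtain ⟨h, hh⟩ : ∃ h : ℕ → ℕ, h = fun x => f x - f x₀ := ⟨_, rfl⟩
  have hfh : ∀ x, f x = h x + f x₀ := fun x => by
    have := hmin x
    simp only [hh]
    omega
  have hq : ∀ x : ℕ, (h x : ℚ) = (p - C (f x₀ : ℚ)).eval (x : ℚ) := fun x => by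
    rw [eval_sub, eval_C, ← hf, hfh x]
    push_cast
    ring
  obtain ⟨A, B, hAB⟩ := exists_lists_one h fun d hd' => hd d fun x => by
    have h1 := hd' x
    have h2 := hd' 0
    rw [hfh x, hfh 0]
    push_cast
    rw [add_sub_add_right_eq_sub]
    exact dvd_sub (Int.natCast_dvd_natCast.2 h1) (Int.natCast_dvd_natCast.2 h2)
  obtain ⟨g, hg⟩ := exists_values_ones (by rwa [natDegree_sub_C]) hq
  obtain ⟨G, hG⟩ : ∃ G, G = g + g * A.length + g * B.length := ⟨_, rfl⟩
  refine ⟨G, G * f x₀ + g * (B.map h).sum, fun n hn => ?_⟩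
  obtain ⟨L, r, hL, hr, hsum⟩ := hg (n - (G * f x₀ + g * (B.map h).sum))
  obtain ⟨M, hM⟩ : ∃ M, M = L ++ (List.replicate r A).flatten ++
      (List.replicate (g - r) B).flatten := ⟨_, rfl⟩
  have hrep : ∀ (j : ℕ) (E : List ℕ), ((List.replicate j E).flatten.map h).sum =
      j * (E.map h).sum ∧ (List.replicate j E).flatten.length = j * E.length := fun j E => by
    induction j with
    | zero => simp
    | succ j ih =>
      simp only [List.replicate_succ, List.flatten_cons, List.map_append, List.sum_append,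
        List.length_append, ih.1, ih.2]
      constructor <;> ring
  have hMlen : M.length ≤ G := by
    rw [hM, List.length_append, List.length_append, (hrep _ _).2, (hrep _ _).2, hG]
    have := Nat.mul_le_mul_right A.length hr
    have := Nat.mul_le_mul_right B.length (Nat.sub_le g r)
    omega
  have hMsum : (M.map h).sum + G * f x₀ = n := by
    rw [hM, List.map_append, List.map_append, List.sum_append, List.sum_append, (hrep _ _).1,
      (hrep _ _).1, ← hAB, Nat.sub_mul, Nat.mul_add, mul_one]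
    have := Nat.mul_le_mul_right (B.map h).sum hr
    omega
  obtain ⟨M', hM'⟩ : ∃ M', M' = M ++ List.replicate (G - M.length) x₀ := ⟨_, rfl⟩
  have hlen : M'.length = G := by
    rw [hM', List.length_append, List.length_replicate]
    omega
  refine ⟨fun i => M'[(i : ℕ)]'(hlen.symm ▸ i.2), ?_⟩
  have e : ∑ i : Fin G, h (M'[(i : ℕ)]'(hlen.symm ▸ i.2)) = (M'.map h).sum := by
    rw [← List.sum_ofFn]
    congr 1
    apply List.ext_getElem <;> simp [hlen]
  rw [sum_congr rfl fun i _ => hfh _, sum_add_distrib, sum_const, card_univ, Fintype.card_fin,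
    smul_eq_mul, e, hM',
    List.map_append, List.sum_append, List.map_replicate, List.sum_replicate]
  have h0 : h x₀ = 0 := by simp [hh]
  rw [h0, smul_zero, add_zero, hMsum]

/-- The condition is necessary. -/
theorem eq_one_of_values_exact {f : ℕ → ℕ} {G N₀ d : ℕ}
    (h : ∀ n, N₀ ≤ n → ∃ x : Fin G → ℕ, ∑ i, f (x i) = n)
    (hd : ∀ x, (d : ℤ) ∣ (f x : ℤ) - f 0) : d = 1 := by
  have key : ∀ n, N₀ ≤ n → (d : ℤ) ∣ (n : ℤ) - G * f 0 := fun n hn => by
    obtain ⟨x, rfl⟩ := h n hn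
    have : ((∑ i, f (x i) : ℕ) : ℤ) - G * f 0 = ∑ i, ((f (x i) : ℤ) - f 0) := by
      rw [sum_sub_distrib, sum_const, card_univ, Fintype.card_fin, nsmul_eq_mul]
      push_cast
      rfl
    rw [this]
    exact dvd_sum fun i _ => hd (x i)
  have h1 := dvd_sub (key (N₀ + 1) (Nat.le_succ _)) (key N₀ le_rfl)
  push_cast at h1
  ring_nf at h1
  exact Nat.dvd_one.1 (by exact_mod_cast h1)

/-- **Binomial coefficients.** -/
theorem exists_choose (k : ℕ) (hk : 1 ≤ k) :
    ∃ g : ℕ, ∀ n : ℕ, ∃ x : Fin g → ℕ, ∑ i, (x i).choose k = n := by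
  obtain ⟨p, hp⟩ : ∃ p : ℚ[X], p = C (1 / (k.factorial : ℚ)) * descPochhammer ℚ k := ⟨_, rfl⟩
  have hdeg : p.natDegree = k := by
    rw [hp, natDegree_C_mul (one_div_ne_zero (Nat.cast_ne_zero.2 k.factorial_ne_zero))]
    exact descPochhammer_natDegree ℚ k
  have hf : ∀ x : ℕ, ((x.choose k : ℕ) : ℚ) = p.eval (x : ℚ) := fun x => by
    rw [hp, eval_mul, eval_C, Nat.cast_choose_eq_descPochhammer_div]
    ring
  obtain ⟨g, hg⟩ := exists_values_ones (f := fun x => x.choose k) (hdeg ▸ hk) hf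
  refine ⟨g + g, fun n => ?_⟩
  obtain ⟨L, r, hL, hr, hsum⟩ := hg n
  obtain ⟨M, hM⟩ : ∃ M, M = L ++ List.replicate r k ++ List.replicate (g + g - (L.length + r)) 0 :=
    ⟨_, rfl⟩
  have hlen : M.length = g + g := by
    rw [hM, List.length_append, List.length_append, List.length_replicate, List.length_replicate]
    omega
  refine ⟨fun i => M[(i : ℕ)]'(hlen.symm ▸ i.2), ?_⟩
  have e : ∑ i : Fin (g + g), (M[(i : ℕ)]'(hlen.symm ▸ i.2)).choose k =
      (M.map fun x => x.choose k).sum := by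
    rw [← List.sum_ofFn]
    congr 1
    apply List.ext_getElem <;> simp [hlen]
  rw [e, hM]
  simp [List.map_replicate, List.sum_replicate, Nat.choose_eq_zero_of_lt hk]
  omega

end FA.WaringKamke

end
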